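/-
C1 nodal core, instantiation, TOP WIRING (helper34): the formal part of block K in the modular
setting: the degeneracy data `Kron.Deg`, the Frobenius data `Kron.FrobInv`, and the elementary facts
on a base coordinate `x' = D.xK Kbar` (`D : S18.BaseData M q`).
-/
import Fermat.Agent.S34.Nodal.Inst.Kron.Frob
import Fermat.Agent.S34.Nodal.Inst.Kron.Chart2
import Fermat.Agent.S34.Nodal.Inst.G.Mod.Defs
import Fermat.Agent.S34.Nodal.Inst.Gal.Compat
import Fermat.Agent.S34.Nodal.Inst.Gal.OneAt
import Fermat.Agent.S18.Base.Coord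
import Fermat.Agent.Lib.Frobenius

set_option autoImplicit false

noncomputable section

namespace Fermat.Agent.S34.Nodal.Inst.Top

open ModularCurve AlgebraicCurve Fermat.Agent.S24 Fermat.Agent.S24.B Fermat.Agent.GAL
  Fermat.Agent.GAL.E Fermat.Agent.S18.Vert Fermat.Agent.S34.Nodal.Inst.Gal

variable {A : ValuationSubring Kbar} {M q : ℕ} [NeZero M] [NeZero q]

/-- The degeneracy data of the levels `M`, `M q`. -/
def deg (W : ALInv M q) :
    Kron.Deg (modularFunctionFieldBar (M * q)) (modularFunctionFieldBar M) (wAlg W) q where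
  al := heckeAlphaBar Kbar M q
  be := heckeBetaBar Kbar M q
  coe_al := fun a => coe_heckeAlphaBar _ _ a
  coe_be := fun a => coe_heckeBetaBar _ _ a
  w_al := W.w_alpha
  w_be := W.w_beta

theorem isAL (W : ALInv M q) : IsAL M q (wAlg W) := ⟨W.w_alpha, W.w_beta⟩

/-- The Frobenius data: `s = galF M σ⁻¹`, `σ` a Frobenius element at `A`. -/
def frobInv {σ : GQ} (hσ : A.IsFrobeniusAt σ q) {x' : FN M} (hx' : galF M σ⁻¹ x' = x') :
    Kron.FrobInv A (modularFunctionFieldBar M) q x' where
  φi := resHom A (⟨σ, hσ.mem_decompositionSubgroup⟩ : A.decompositionSubgroup ℚ)⁻¹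
  φi_pow := fun c => by
    rw [resHom_apply, ← hσ.smul_residue_eq, smul_inv_smul]
  s := (galF M σ⁻¹ : FN M →+* FN M)
  s_gauss := fun y hy =>
    galF_mem_gauss (⟨σ, hσ.mem_decompositionSubgroup⟩ : A.decompositionSubgroup ℚ)⁻¹ hy
  s_int := fun y hy => galF_isIntegral σ⁻¹ hx' hy
  rho_s := fun y => rho_galF (⟨σ, hσ.mem_decompositionSubgroup⟩ : A.decompositionSubgroup ℚ)⁻¹ y

/-! ### Series with integer coefficients -/

theorem inc_castA (Y : LaurentSeries ℤ) :
    inc A (coeffMap (Int.castRingHom A) Y) = coeffMap (Int.castRingHom Kbar) Y := by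
  show coeffMap A.subtype (coeffMap (Int.castRingHom A) Y) = _
  rw [coeffMap_coeffMap]
  exact coeffMap_congr (RingHom.ext_int _ _) Y

theorem red_castA (Y : LaurentSeries ℤ) :
    S18.Vert.red A (coeffMap (Int.castRingHom A) Y) = coeffMap (Int.castRingHom (kk A)) Y := by
  show coeffMap (IsLocalRing.residue A) (coeffMap (Int.castRingHom A) Y) = _
  rw [coeffMap_coeffMap]
  exact coeffMap_congr (RingHom.ext_int _ _) Y

/-- An element of `FN N` with integer coefficients is Gauss integral, with the obvious reduction. -/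
theorem exists_rho_of_int {N : ℕ} {y : FN N} {Y : LaurentSeries ℤ}
    (hy : (y : LaurentSeries Kbar) = coeffMap (Int.castRingHom Kbar) Y) :
    ∃ h : y ∈ gaussSubring A (modularFunctionFieldBar N),
      rho A (modularFunctionFieldBar N) ⟨y, h⟩ = coeffMap (Int.castRingHom (kk A)) Y := by
  have hm : inc A (coeffMap (Int.castRingHom A) Y) ∈ modularFunctionFieldBar N := by
    rw [inc_castA, ← hy]
    exact y.2
  have e : y = ⟨inc A (coeffMap (Int.castRingHom A) Y), hm⟩ :=
    Subtype.ext (hy.trans (inc_castA Y).symm)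
  subst e
  exact ⟨inc_mem_gauss _ hm, by rw [rho_inc, red_castA]⟩

theorem galF_of_int {N : ℕ} (σ : GQ) {y : FN N} {Y : LaurentSeries ℤ}
    (hy : (y : LaurentSeries Kbar) = coeffMap (Int.castRingHom Kbar) Y) : galF N σ y = y := by
  apply Subtype.ext
  rw [coe_galF, hy, coeffMap_coeffMap]
  exact coeffMap_congr (RingHom.ext_int _ _) Y

end Fermat.Agent.S34.Nodal.Inst.Top

end
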