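/-
C1 nodal core, instantiation, TOP WIRING (helper34), part 2: from the contracts (in the modular
setting) to the conclusion of the nodal core at one level `(M, q)`.

* `NodalAt W A n`       : the conclusion (inertia acts trivially, `σ ^ 2 = q ^ 2` on the toric part);
* `riemHyp_modular`     : `Contracts.RiemHyp` from block R (only input: `x` transcendental);
* `nodalAt_of_contracts`: `NodalAt W A n` from `Contracts` + Galois invariance of `x'`, `x` + the
                          shape of `Fr2`.
-/
import Fermat.Agent.S34.Nodal.Inst.Assembly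
import Fermat.Agent.S34.Nodal.Inst.Gal.Compat
import Fermat.Agent.S34.Nodal.Inst.Gal.OneAt
import Fermat.Agent.S34.Nodal.Inst.R.Modular
import Fermat.Agent.Lib.InertiaField.Residue

set_option autoImplicit false

noncomputable section

namespace Fermat.Agent.S34.Nodal.Inst.Top

open ModularCurve AlgebraicCurve Fermat.Agent.S24 Fermat.Agent.S24.B Fermat.Agent.GAL
  Fermat.Agent.GAL.E Fermat.Agent.S18.Vert Fermat.Agent.S34.Nodal.Inst.Gal

/-- The residue field of a valuation subring of `ℚ̄` is algebraically closed. -/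
instance instIsAlgClosedKK (A : ValuationSubring Kbar) : IsAlgClosed (kk A) :=
  Lib.InertiaField.isAlgClosed_residueField A

/-- **The conclusion of the nodal core at level `(M, q)`.** -/
def NodalAt {M q : ℕ} [NeZero M] [NeZero q] (W : ALInv M q) (A : ValuationSubring Kbar) (n : ℕ) :
    Prop :=
  ∀ u : FN (M * q), IsKum (M * q) n u → OneAt (M * q) A u → OneAt (M * q) A (W.w u) →
    (∀ τ : GQ, τ ∈ A.inertiaSubgroupIn ℚ → ∃ v : FN (M * q), galF (M * q) τ u = v ^ n * u) ∧
    (∀ σ : GQ, A.IsFrobeniusAt σ q →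
      ∃ v : FN (M * q), galF (M * q) σ (galF (M * q) σ u) = v ^ n * u ^ (q ^ 2))

variable {A : ValuationSubring Kbar} {M q n : ℕ} [NeZero M] [NeZero q]

/-- **Block R**: the Riemann hypothesis of the abstract nodal setting, in the modular case. -/
theorem riemHyp_modular (hq : q.Prime) (hA : A.LiesOverPrime q) {W : ALInv M q} {x' : FN M}
    {x : FN (M * q)}
    (C : Contracts A (modularFunctionFieldBar (M * q)) (modularFunctionFieldBar M) (wAlg W) x' x n q
      (IsKum (M * q) n))
    (hx : Transcendental Kbar x) : C.RiemHyp := by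
  intro u hK hu
  have : FF.IsFF1 Kbar (modularFunctionFieldBar (M * q)) := Export.isFF1 (M * q)
  exact Setup.riem_of_kummer (S := C.setup) (K := Kbar)
    ((R.att_modular A q hq hA (M * q)).echelonDataAlg (wAlg W))
    (Setup.ChartsByPlaces.of_isIntegral hx (fun _ => Iff.rfl) (fun _ => Iff.rfl)) (u := u) hu hK

/-- **The conclusion of the nodal core from the contracts.** -/
theorem nodalAt_of_contracts (hq : q.Prime) (hA : A.LiesOverPrime q) {W : ALInv M q} {x' : FN M}
    {x : FN (M * q)}
    (C : Contracts A (modularFunctionFieldBar (M * q)) (modularFunctionFieldBar M) (wAlg W) x' x n q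
      (IsKum (M * q) n))
    (hR : C.RiemHyp)
    (hx' : ∀ σ : GQ, galF M σ x' = x') (hx : ∀ σ : GQ, galF (M * q) σ x = x)
    (hFr2 : ∀ f : bb A (modularFunctionFieldBar M) x',
      ((C.Fr2 f : bb A (modularFunctionFieldBar M) x') : LaurentSeries (kk A)) =
        qExpand (kk A) (q ^ 2) (f : LaurentSeries (kk A))) :
    NodalAt W A n := by
  intro u hK h1 h2
  have hu : u ∈ OO A (modularFunctionFieldBar (M * q)) (wAlg W) := mem_OO_of_oneAt W h1 h2
  have hu' : u⁻¹ ∈ OO A (modularFunctionFieldBar (M * q)) (wAlg W) :=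
    mem_OO_of_oneAt W h1.inv (by rw [map_inv₀]; exact h2.inv)
  have hred := red2_of_oneAt W h1 h2
  constructor
  · intro τ hτ
    obtain ⟨z, hz⟩ := C.tor hR (galCompat_inertia hq W C τ hτ (hx τ)) u hu hu' hred hK
    exact ⟨z, by rw [hz, pow_one]⟩
  · intro σ hσ
    have : Fact q.Prime := ⟨hq⟩
    have : CharP (kk A) q := charP_residueField A q hq hA
    obtain ⟨z, hz⟩ := C.tor hR (galCompat_frobSq hq W C hFr2 hσ (hx' σ) (hx σ)) u hu hu' hred hK
    exact ⟨z, by rw [← galF_mul, hz]⟩

end Fermat.Agent.S34.Nodal.Inst.Top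

end
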