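/-
C1 nodal core, instantiation, TOP WIRING (helper34), part 1: change of level.

`C1.NodalTarget` follows from `NodalAt W A n` at the levels `(M, q)` which have a good base
(`q ≥ 5`: any `M`; `q = 3`: `2 ∣ M`; `q = 2`: `3 ∣ M`).  For the other levels one passes to
`(r M, q)`, `r = 2, 3`, and takes the norm: this costs the exponent `d = r + 1`, a power of `q`.
-/
import Fermat.Agent.S34.Nodal.Inst.Top.FromContracts
import Fermat.Agent.S34.ALExists
import Fermat.Agent.GAL.KLLevel
import Fermat.Agent.C1.Target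

set_option autoImplicit false
set_option linter.style.haveILetI false

noncomputable section

namespace Fermat.Agent.S34.Nodal.Inst.Top

open ModularCurve AlgebraicCurve Fermat.Agent.S24 Fermat.Agent.S24.B Fermat.Agent.GAL
  Fermat.Agent.GAL.E

section Incl

variable {N N' : ℕ} [NeZero N] [NeZero N'] (h : N ∣ N')

theorem isKum_levelIncl {n : ℕ} {u : FN N} (hu : IsKum N n u) : IsKum N' n (levelIncl h u) := by
  letI := (levelIncl h).toRingHom.toAlgebra
  have : IsScalarTower Kbar (FN N) (FN N') :=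
    IsScalarTower.of_algebraMap_eq fun a => ((levelIncl h).commutes a).symm
  have hfin := dedekindPsi_mul_finrank h
  have hpos : 0 < Module.finrank (FN N) (FN N') := by
    rcases Nat.eq_zero_or_pos (Module.finrank (FN N) (FN N')) with h0 | h0
    · rw [h0, mul_zero] at hfin
      exact absurd hfin.symm (dedekindPsi_pos N').ne'
    · exact h0
  have : FiniteDimensional (FN N) (FN N') := Module.finite_of_finrank_pos hpos
  intro v
  have e : levelIncl h u = algebraMap (FN N) (FN N') u := rfl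
  rw [e, Place.ord_restrict]
  exact Dvd.dvd.mul_left (hu _) _

theorem oneAt_levelIncl {A : ValuationSubring Kbar} {u : FN N} (hu : OneAt N A u) :
    OneAt N' A (levelIncl h u) := by
  obtain ⟨P, Q, hP, hQ, h1, h2, rfl⟩ := hu
  refine ⟨P, Q, FN_le h hP, FN_le h hQ, h1, h2, ?_⟩
  rw [map_div₀, levelIncl_mk, levelIncl_mk]

theorem galF_levelIncl (σ : GQ) (u : FN N) :
    galF N' σ (levelIncl h u) = levelIncl h (galF N σ u) :=
  Subtype.ext (by rw [coe_galF, coe_levelIncl, coe_levelIncl, coe_galF])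

/-- The norm argument. -/
theorem exists_pow_eq_of_levelIncl {d n : ℕ} (hd : dedekindPsi N' = dedekindPsi N * d)
    {a b : FN N} {v : FN N'} (hv : levelIncl h a = v ^ n * levelIncl h b) :
    ∃ v' : FN N, a ^ d = b ^ d * v' ^ n := by
  letI := (levelIncl h).toRingHom.toAlgebra
  have hfin := dedekindPsi_mul_finrank h
  have hdeg : Module.finrank (FN N) (FN N') = d := by
    rw [hd] at hfin
    exact Nat.eq_of_mul_eq_mul_left (dedekindPsi_pos N) hfin
  have e : algebraMap (FN N) (FN N') a = v ^ n * algebraMap (FN N) (FN N') b := hv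
  have e2 := congrArg (Algebra.norm (FN N)) e
  rw [map_mul, map_pow, Algebra.norm_algebraMap, Algebra.norm_algebraMap, hdeg] at e2
  exact ⟨Algebra.norm (FN N) v, by rw [e2, mul_comm]⟩

end Incl

section AL

variable {M q r : ℕ} [NeZero M] [NeZero q] [NeZero (r * M)]

theorem dvd_level (M q r : ℕ) : M * q ∣ r * M * q := ⟨r, by ring⟩

theorem levelIncl_alpha (x : FN M) :
    levelIncl (dvd_level M q r) (heckeAlphaBar Kbar M q x) =
      heckeAlphaBar Kbar (r * M) q (levelIncl (Dvd.intro_left r rfl) x) :=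
  Subtype.ext (by rw [coe_levelIncl, coe_heckeAlphaBar, coe_heckeAlphaBar, coe_levelIncl])

theorem levelIncl_beta (x : FN M) :
    levelIncl (dvd_level M q r) (heckeBetaBar Kbar M q x) =
      heckeBetaBar Kbar (r * M) q (levelIncl (Dvd.intro_left r rfl) x) :=
  Subtype.ext (by rw [coe_levelIncl, coe_heckeBetaBar, coe_heckeBetaBar, coe_levelIncl])

/-- The Atkin-Lehner involutions at `q` of the levels `M q` and `r M q` are compatible. -/
theorem w_levelIncl (hq : q.Prime) (W : ALInv M q) (W' : ALInv (r * M) q) (u : FN (M * q)) :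
    W'.w (levelIncl (dvd_level M q r) u) = levelIncl (dvd_level M q r) (W.w u) := by
  induction u using FN_induction_alpha_beta M q hq with
  | hα x => rw [levelIncl_alpha, W'.w_alpha, W.w_alpha, levelIncl_beta]
  | hβ x => rw [levelIncl_beta, W'.w_beta, W.w_beta, levelIncl_alpha]
  | hadd f g hf hg => rw [map_add, map_add, map_add, map_add, hf, hg]
  | hneg f hf => rw [map_neg, map_neg, map_neg, map_neg, hf]
  | hmul f g hf hg => rw [map_mul, map_mul, map_mul, map_mul, hf, hg]
  | hinv f hf => rw [map_inv₀, map_inv₀, map_inv₀, map_inv₀, hf]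

/-- **Change of level**: the conclusion of the nodal core at level `(r M, q)` gives the conclusion
at level `(M, q)`, up to the exponent `r + 1`. -/
theorem nodal_of_level (hq : q.Prime) (hr : r.Prime) (hrN : ¬ r ∣ M * q) (W : ALInv M q)
    (W' : ALInv (r * M) q) {A : ValuationSubring Kbar} {n : ℕ} (H : NodalAt W' A n)
    (u : FN (M * q)) (hK : IsKum (M * q) n u) (h1 : OneAt (M * q) A u)
    (h2 : OneAt (M * q) A (W.w u)) :
    (∀ τ : GQ, τ ∈ A.inertiaSubgroupIn ℚ →
      ∃ v : FN (M * q), (galF (M * q) τ u) ^ (r + 1) = u ^ (r + 1) * v ^ n) ∧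
    (∀ σ : GQ, A.IsFrobeniusAt σ q →
      ∃ v : FN (M * q), (galF (M * q) σ (galF (M * q) σ u)) ^ (r + 1) =
        (u ^ (q ^ 2)) ^ (r + 1) * v ^ n) := by
  have hd : dedekindPsi (r * M * q) = dedekindPsi (M * q) * (r + 1) := by
    rw [mul_assoc, S20.Combinatorics.dedekindPsi_mul_of_not_dvd (NeZero.ne (M * q)) hr hrN,
      mul_comm]
  obtain ⟨HI, HF⟩ := H (levelIncl (dvd_level M q r) u) (isKum_levelIncl _ hK)
    (oneAt_levelIncl _ h1) (by rw [w_levelIncl hq W W']; exact oneAt_levelIncl _ h2)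
  constructor
  · intro τ hτ
    obtain ⟨v, hv⟩ := HI τ hτ
    rw [galF_levelIncl] at hv
    exact exists_pow_eq_of_levelIncl _ hd hv
  · intro σ hσ
    obtain ⟨v, hv⟩ := HF σ hσ
    rw [galF_levelIncl, galF_levelIncl, ← map_pow] at hv
    exact exists_pow_eq_of_levelIncl _ hd hv

end AL

/-- **The conclusion of the nodal core at the levels which have a good base.** -/
def NodalSpecial : Prop :=
  ∀ (M q : ℕ) [NeZero M] [NeZero q], q.Prime → ¬ q ∣ M → (q = 3 → 2 ∣ M) → (q = 2 → 3 ∣ M) →
    ∀ W : ALInv M q, ∀ A : ValuationSubring Kbar, A.LiesOverPrime q →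
      ∀ n : ℕ, 0 < n → ¬ q ∣ n → NodalAt W A n

/-- **`C1.NodalTarget` from the levels which have a good base.** -/
theorem nodalTarget_of_special (H : NodalSpecial) : C1.NodalTarget := by
  intro M q _ _ hq hqM w hwα hwβ A hA n hn hqn u hK h1 h2
  obtain ⟨W⟩ := nonempty_ALInv M q hq hqM
  have hw : ∀ f : FN (M * q), w f = W.w f := by
    intro f
    induction f using FN_induction_alpha_beta M q hq with
    | hα x => rw [hwα, W.w_alpha]
    | hβ x => rw [hwβ, W.w_beta]
    | hadd f g hf hg => rw [map_add, map_add, hf, hg]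
    | hneg f hf => rw [map_neg, map_neg, hf]
    | hmul f g hf hg => rw [map_mul, map_mul, hf, hg]
    | hinv f hf => rw [map_inv₀, map_inv₀, hf]
  rw [hw] at h2
  -- the direct case
  have direct : NodalAt W A n → ∃ d : ℕ, d.Coprime n ∧
      (∀ τ : GQ, τ ∈ A.inertiaSubgroupIn ℚ →
        ∃ v : FN (M * q), (galF (M * q) τ u) ^ d = u ^ d * v ^ n) ∧
      (∀ σ : GQ, A.IsFrobeniusAt σ q →
        ∃ v : FN (M * q), (galF (M * q) σ (galF (M * q) σ u)) ^ d = (u ^ (q ^ 2)) ^ d * v ^ n) := by
    intro H0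
    obtain ⟨HI, HF⟩ := H0 u hK h1 h2
    refine ⟨1, Nat.coprime_one_left n, fun τ hτ => ?_, fun σ hσ => ?_⟩
    · obtain ⟨v, hv⟩ := HI τ hτ
      exact ⟨v, by rw [pow_one, pow_one, hv, mul_comm (v ^ n)]⟩
    · obtain ⟨v, hv⟩ := HF σ hσ
      exact ⟨v, by rw [pow_one, pow_one, hv, mul_comm (v ^ n)]⟩
  -- the case of an auxiliary level
  have aux : ∀ r : ℕ, r.Prime → r ≠ q → ¬ r ∣ M → (r + 1).Coprime n → (q = 3 → r = 2) →
      (q = 2 → r = 3) → ∃ d : ℕ, d.Coprime n ∧
      (∀ τ : GQ, τ ∈ A.inertiaSubgroupIn ℚ →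
        ∃ v : FN (M * q), (galF (M * q) τ u) ^ d = u ^ d * v ^ n) ∧
      (∀ σ : GQ, A.IsFrobeniusAt σ q →
        ∃ v : FN (M * q), (galF (M * q) σ (galF (M * q) σ u)) ^ d = (u ^ (q ^ 2)) ^ d * v ^ n) := by
    intro r hr hrq hrM hcop h3 h2'
    have : NeZero (r * M) := ⟨mul_ne_zero hr.ne_zero (NeZero.ne M)⟩
    have hqrM : ¬ q ∣ r * M := by
      intro hdvd
      rcases (Nat.Prime.dvd_mul hq).1 hdvd with hd | hd
      · exact hrq ((Nat.prime_dvd_prime_iff_eq hq hr).1 hd).symm
      · exact hqM hd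
    have hrN : ¬ r ∣ M * q := by
      intro hdvd
      rcases (Nat.Prime.dvd_mul hr).1 hdvd with hd | hd
      · exact hrM hd
      · exact hrq ((Nat.prime_dvd_prime_iff_eq hr hq).1 hd)
    obtain ⟨W'⟩ := nonempty_ALInv (r * M) q hq hqrM
    have H0 := H (r * M) q hq hqrM (fun e => by rw [h3 e]; exact Dvd.intro _ rfl)
      (fun e => by rw [h2' e]; exact Dvd.intro _ rfl) W' A hA n hn hqn
    exact ⟨r + 1, hcop, nodal_of_level hq hr hrN W W' H0 u hK h1 h2⟩
  by_cases e3 : q = 3
  · subst e3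
    by_cases h2M : 2 ∣ M
    · exact direct (H M 3 hq hqM (fun _ => h2M) (fun e => absurd e (by decide)) W A hA n hn hqn)
    · exact aux 2 Nat.prime_two (by decide) h2M
        ((Nat.Prime.coprime_iff_not_dvd Nat.prime_three).2 hqn) (fun _ => rfl)
        (fun e => absurd e (by decide))
  by_cases e2 : q = 2
  · subst e2
    by_cases h3M : 3 ∣ M
    · exact direct (H M 2 hq hqM (fun e => absurd e (by decide)) (fun _ => h3M) W A hA n hn hqn)
    · refine aux 3 Nat.prime_three (by decide) h3M ?_ (fun e => absurd e (by decide)) (fun _ => rfl)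
      have : Nat.Coprime 2 n := (Nat.Prime.coprime_iff_not_dvd Nat.prime_two).2 hqn
      exact Nat.Coprime.pow_left 2 this
  · exact direct (H M q hq hqM (fun e => absurd e e3) (fun e => absurd e e2) W A hA n hn hqn)

end Fermat.Agent.S34.Nodal.Inst.Top

end
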