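/-
C1 nodal core, instantiation, TOP WIRING (helper34): `C1.NodalTarget` from the existence of the
contracts at the levels which have a good base.

`ContractsStatement` is what the blocks G, K, II, UR have to deliver (block R and block Gal are
already plugged in).
-/
import Fermat.Agent.S34.Nodal.Inst.Top.Level

set_option autoImplicit false

noncomputable section

namespace Fermat.Agent.S34.Nodal.Inst.Top

open ModularCurve AlgebraicCurve Fermat.Agent.S24 Fermat.Agent.S24.B Fermat.Agent.GAL
  Fermat.Agent.GAL.E Fermat.Agent.S34.Nodal.Inst.Gal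

/-- The contracts at level `(M, q)`, with the three compatibilities needed by the block Gal and the
block R. -/
def HasContracts {M q : ℕ} [NeZero M] [NeZero q] (W : ALInv M q) (A : ValuationSubring Kbar)
    (n : ℕ) : Prop :=
  ∃ (x' : FN M) (x : FN (M * q))
    (C : Contracts A (modularFunctionFieldBar (M * q)) (modularFunctionFieldBar M) (wAlg W) x' x n q
      (IsKum (M * q) n)),
    Transcendental Kbar x ∧ (∀ σ : GQ, galF M σ x' = x') ∧ (∀ σ : GQ, galF (M * q) σ x = x) ∧
      ∀ f : bb A (modularFunctionFieldBar M) x',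
        ((C.Fr2 f : bb A (modularFunctionFieldBar M) x') : LaurentSeries (kk A)) =
          qExpand (kk A) (q ^ 2) (f : LaurentSeries (kk A))

theorem nodalAt_of_hasContracts {M q : ℕ} [NeZero M] [NeZero q] (hq : q.Prime) {W : ALInv M q}
    {A : ValuationSubring Kbar} (hA : A.LiesOverPrime q) {n : ℕ} (h : HasContracts W A n) :
    NodalAt W A n := by
  obtain ⟨x', x, C, hx, h1, h2, h3⟩ := h
  exact nodalAt_of_contracts hq hA C (riemHyp_modular hq hA C hx) h1 h2 h3

/-- **What remains to be constructed.** -/
def ContractsStatement : Prop :=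
  ∀ (M q : ℕ) [NeZero M] [NeZero q], q.Prime → ¬ q ∣ M → (q = 3 → 2 ∣ M) → (q = 2 → 3 ∣ M) →
    ∀ W : ALInv M q, ∀ A : ValuationSubring Kbar, A.LiesOverPrime q →
      ∀ n : ℕ, 0 < n → ¬ q ∣ n → HasContracts W A n

theorem nodalSpecial_of_contracts (H : ContractsStatement) : NodalSpecial :=
  fun M q _ _ hq hqM h3 h2 W A hA n hn hqn =>
    nodalAt_of_hasContracts hq hA (H M q hq hqM h3 h2 W A hA n hn hqn)

/-- **`C1.NodalTarget` from the contracts.** -/
theorem nodalTarget_of_contracts (H : ContractsStatement) : C1.NodalTarget :=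
  nodalTarget_of_special (nodalSpecial_of_contracts H)

end Fermat.Agent.S34.Nodal.Inst.Top

end
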