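/-
C1 nodal core, instantiation, TOP WIRING (helper34): integrality over `K[x]` in terms of places, and
the integrality relations between `a = α x'`, `b = β x'` and `x = a b`.
-/
import Fermat.Agent.S18.Places.Dedekind
import Fermat.Agent.S24.FFDict

set_option autoImplicit false

noncomputable section

namespace Fermat.Agent.S34.Nodal.Inst.Top

open AlgebraicCurve IntermediateField Fermat.Agent.S24

variable {K F : Type*} [Field K] [CharZero K] [Field F] [Algebra K F] [FF.IsFF1 K F]

theorem isIntegral_iff_places {x : F} (hx : Transcendental K x) (z : F) :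
    IsIntegral (Algebra.adjoin K {x}) z ↔ ∀ v : Place K F, 0 ≤ v.ord x → 0 ≤ v.ord z := by
  have : FiniteDimensional K⟮x⟯ F := FF.IsFF1.finite _ hx
  rw [← S18.mem_chart_top_iff_isIntegral, S18.mem_chart_top_iff_places hx]

omit [CharZero K] [FF.IsFF1 K F] in
theorem transcendental_inv {x : F} (hx : Transcendental K x) : Transcendental K x⁻¹ := by
  intro h
  apply hx
  have := h.inv
  rwa [inv_inv] at this

omit [CharZero K] [FF.IsFF1 K F] in
theorem ne_zero_of_transcendental {x : F} (hx : Transcendental K x) : x ≠ 0 := by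
  rintro rfl
  exact hx isAlgebraic_zero

/-- The relations between the poles of `a` and `b`. -/
structure Poles (K : Type*) {F : Type*} [Field K] [Field F] [Algebra K F] (a b : F) (q : ℕ) :
    Prop where
  ta : Transcendental K a
  tb : Transcendental K b
  tab : Transcendental K (a * b)
  b_int : IsIntegral (Algebra.adjoin K {a}) b
  a_int : IsIntegral (Algebra.adjoin K {b}) a
  v_int : IsIntegral (Algebra.adjoin K {a⁻¹}) (b / a ^ q)
  v_int' : IsIntegral (Algebra.adjoin K {b⁻¹}) (a / b ^ q)

namespace Poles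

variable {a b : F} {q : ℕ} (P : Poles K a b q)

include P

omit [CharZero K] [FF.IsFF1 K F] in
theorem symm : Poles K b a q :=
  ⟨P.tb, P.ta, by rw [mul_comm]; exact P.tab, P.a_int, P.b_int, P.v_int', P.v_int⟩

/-- `a` is integral over `K[a b]`. -/
theorem a_int_ab : IsIntegral (Algebra.adjoin K {a * b}) a := by
  have ha := ne_zero_of_transcendental P.ta
  have hb := ne_zero_of_transcendental P.tb
  rw [isIntegral_iff_places P.tab]
  intro v hv
  rw [v.ord_mul ha hb] at hv
  by_contra hlt
  rw [not_le] at hlt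
  have h1 : ¬ 0 ≤ v.ord b := fun h => absurd ((isIntegral_iff_places P.tb a).1 P.a_int v h)
    (not_le.2 hlt)
  omega

theorem b_int_ab : IsIntegral (Algebra.adjoin K {a * b}) b := by
  have := P.symm.a_int_ab
  rwa [mul_comm] at this

/-- `a⁻¹` is integral over `K[(a b)⁻¹]`. -/
theorem ainv_int : IsIntegral (Algebra.adjoin K {(a * b)⁻¹}) a⁻¹ := by
  have ha := ne_zero_of_transcendental P.ta
  have hb := ne_zero_of_transcendental P.tb
  rw [isIntegral_iff_places (transcendental_inv P.tab)]
  intro v hv
  rw [v.ord_inv, v.ord_mul ha hb] at hv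
  rw [v.ord_inv]
  by_contra hlt
  have h1 : 0 ≤ v.ord b := (isIntegral_iff_places P.ta b).1 P.b_int v (by omega)
  omega

theorem binv_int : IsIntegral (Algebra.adjoin K {(a * b)⁻¹}) b⁻¹ := by
  have := P.symm.ainv_int
  rwa [mul_comm] at this

/-- `b * a⁻¹ ^ q` is integral over `K[(a b)⁻¹]`. -/
theorem eps'_int : IsIntegral (Algebra.adjoin K {(a * b)⁻¹}) (b * a⁻¹ ^ q) := by
  have h1 := (isIntegral_iff_places (transcendental_inv P.tab) a⁻¹).1 P.ainv_int
  have h2 := (isIntegral_iff_places (transcendental_inv P.ta) (b / a ^ q)).1 P.v_int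
  rw [isIntegral_iff_places (transcendental_inv P.tab)]
  intro v hv
  have e : b * a⁻¹ ^ q = b / a ^ q := by rw [inv_pow, div_eq_mul_inv]
  rw [e]
  exact h2 v (h1 v hv)

theorem eps_int : IsIntegral (Algebra.adjoin K {(a * b)⁻¹}) (a * b⁻¹ ^ q) := by
  have := P.symm.eps'_int
  rwa [mul_comm b a] at this

end Poles

/-! ### Transport of integrality along an algebra homomorphism -/

omit [CharZero K] [FF.IsFF1 K F] in
theorem isIntegral_adjoin_algHom {F' : Type*} [Field F'] [Algebra K F'] (f : F' →ₐ[K] F)
    {x' c : F'} (hc : IsIntegral (Algebra.adjoin K {x'}) c) :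
    IsIntegral (Algebra.adjoin K {f x'}) (f c) := by
  have hmem : ∀ z ∈ Algebra.adjoin K {x'}, f z ∈ Algebra.adjoin K {f x'} := by
    intro z hz
    have : f z ∈ (Algebra.adjoin K {x'}).map f := ⟨z, hz, rfl⟩
    rwa [AlgHom.map_adjoin, Set.image_singleton] at this
  let φ : Algebra.adjoin K {x'} →+* Algebra.adjoin K {f x'} :=
    ((f : F' →+* F).comp (Algebra.adjoin K {x'}).val.toRingHom).codRestrict
      (Algebra.adjoin K {f x'}) fun z => hmem z z.2
  exact hc.map_of_comp_eq φ (f : F' →+* F) (RingHom.ext fun z => rfl)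

omit [CharZero K] [FF.IsFF1 K F] in
theorem isIntegral_adjoin_algHom' {F' : Type*} [Field F'] [Algebra K F'] (f : F' →ₐ[K] F)
    {x' c : F'} {y d : F} (hy : f x' = y) (hd : f c = d)
    (hc : IsIntegral (Algebra.adjoin K {x'}) c) : IsIntegral (Algebra.adjoin K {y}) d := by
  subst hy hd
  exact isIntegral_adjoin_algHom f hc

omit [CharZero K] [FF.IsFF1 K F] in
theorem transcendental_algHom {F' : Type*} [Field F'] [Algebra K F'] (f : F' →ₐ[K] F) {x' : F'}
    (hx' : Transcendental K x') : Transcendental K (f x') :=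
  fun h => hx' ((isAlgebraic_algHom_iff f f.toRingHom.injective).1 h)

end Fermat.Agent.S34.Nodal.Inst.Top

end
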