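/-
C1 nodal core, instantiation, TOP WIRING (helper34): THE CONSTRUCTION OF THE CONTRACTS.

`hasContracts_of_inputs : Inputs W A n D → HasContracts W A n`, where `D : S18.BaseData M q` is a base
coordinate and `Inputs` lists the modular inputs which are not yet available as theorems:

* `be_int`, `v_int` : the poles of `β x'` versus the poles of `α x'`       (block K / ORD)
* `hH1`             : the field `hH1` of `Contracts`                        (block K6 + UR)
* `hG4`             : `II.HasG4` over a cofinal family of number fields     (LQ-MOD + block II)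

Everything else (blocks G, K1-K5, R, II, Gal, UR at the good level) is plugged in.
-/
import Fermat.Agent.S34.Nodal.Inst.Top.Main
import Fermat.Agent.S34.Nodal.Inst.Top.Places
import Fermat.Agent.S34.Nodal.Inst.Top.Deg
import Fermat.Agent.S34.Nodal.Inst.G.Mod.Fields
import Fermat.Agent.S34.Nodal.Inst.G.Level
import Fermat.Agent.S34.Nodal.Inst.R.Exhaust
import Fermat.Agent.S34.Nodal.Inst.R.Div
import Fermat.Agent.S34.Nodal.Inst.R.Transc
import Fermat.Agent.S34.Nodal.Inst.R.Alg
import Fermat.Agent.S34.Nodal.Inst.II.Final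

set_option autoImplicit false
set_option linter.unusedSectionVars false

noncomputable section

namespace Fermat.Agent.S34.Nodal.Inst.Top

open ModularCurve AlgebraicCurve Fermat.Agent.S24 Fermat.Agent.S24.B Fermat.Agent.GAL
  Fermat.Agent.GAL.E Fermat.Agent.S18.Vert Fermat.Agent.S34.Nodal.Inst.Gal

/-- A valuation ring is closed under `n`-th roots. -/
theorem IsVal.root {K : Type*} [Field K] {A : ValuationSubring K}
    {F : IntermediateField K (LaurentSeries K)} (hF : IsVal A F) {n : ℕ} (hn : 0 < n) (z : F)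
    (hz : z ^ n ∈ gaussSubring A F) : z ∈ gaussSubring A F := by
  rcases eq_or_ne z 0 with rfl | hz0
  · exact zero_mem _
  rcases hF z hz0 with h | ⟨h, h0⟩
  · exact h
  · exfalso
    have e : (⟨z⁻¹, h⟩ : gaussSubring A F) ^ n * ⟨z ^ n, hz⟩ = 1 :=
      Subtype.ext (by
        show z⁻¹ ^ n * z ^ n = 1
        rw [← mul_pow, inv_mul_cancel₀ hz0, one_pow])
    have e2 := congrArg (rho A F) e
    rw [map_mul, map_pow, h0, zero_pow hn.ne', zero_mul, map_one] at e2
    exact zero_ne_one e2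

variable {A : ValuationSubring Kbar} {M q n : ℕ} [NeZero M] [NeZero q]

/-- **The modular inputs which are still missing.** -/
structure Inputs (W : ALInv M q) (A : ValuationSubring Kbar) (n : ℕ) (D : S18.BaseData M q) :
    Prop where
  /-- block K / ORD -/
  be_int : IsIntegral (Algebra.adjoin Kbar {heckeAlphaBar Kbar M q (D.xK Kbar)})
    (heckeBetaBar Kbar M q (D.xK Kbar))
  /-- block K / ORD -/
  v_int : IsIntegral (Algebra.adjoin Kbar {(heckeAlphaBar Kbar M q (D.xK Kbar))⁻¹})
    (heckeBetaBar Kbar M q (D.xK Kbar) / heckeAlphaBar Kbar M q (D.xK Kbar) ^ q)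
  /-- block K6 -/
  hH1 : ∃ c : ℕ, ∀ z ∈ chartMid A (modularFunctionFieldBar (M * q)) (wAlg W) (xx (D.xK Kbar)),
    ∃ z1 ∈ chart A (modularFunctionFieldBar (M * q)) (wAlg W) (xx (D.xK Kbar)),
    ∃ z2 ∈ chart A (modularFunctionFieldBar (M * q)) (wAlg W) (xx (D.xK Kbar))⁻¹,
      z = z1 + xx (D.xK Kbar) ^ c * z2
  /-- LQ-MOD + block II -/
  hG4 : ∃ Good : IntermediateField ℚ Kbar → Prop,
    (∀ K₁ : IntermediateField ℚ Kbar, FiniteDimensional ℚ K₁ →
      ∃ K₀ : IntermediateField ℚ Kbar, K₁ ≤ K₀ ∧ FiniteDimensional ℚ K₀ ∧ Good K₀) ∧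
    ∀ K₀ : IntermediateField ℚ Kbar, FiniteDimensional ℚ K₀ → Good K₀ →
      II.HasG4 A K₀ M q (xx (D.xK Kbar))

section Base

variable (D : S18.BaseData M q)

theorem order_xK_ne : ((D.xK Kbar : FN M) : LaurentSeries Kbar).order ≠ 0 := by
  rw [S18.Coord.coe_xK, S18.Coord.order_coeffMap D.mul_inv]
  exact D.order_ne

theorem xK_ne_zero : (D.xK Kbar : FN M) ≠ 0 :=
  ne_zero_of_transcendental (S18.transcendental_xK D Kbar)

theorem baseOK (hq : q.Prime)
    (be_int : IsIntegral (Algebra.adjoin Kbar {heckeAlphaBar Kbar M q (D.xK Kbar)})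
      (heckeBetaBar Kbar M q (D.xK Kbar)))
    (v_int : IsIntegral (Algebra.adjoin Kbar {(heckeAlphaBar Kbar M q (D.xK Kbar))⁻¹})
      (heckeBetaBar Kbar M q (D.xK Kbar) / heckeAlphaBar Kbar M q (D.xK Kbar) ^ q)) :
    BaseOK M q (D.xK Kbar) where
  ne_zero := xK_ne_zero D
  be_int := be_int
  v_int := v_int
  ser := by
    have : Fact q.Prime := ⟨hq⟩
    refine ⟨D.X, S18.Coord.coe_xK D Kbar, fun h => ?_⟩
    have h1 := congrArg (coeffMap (Int.castRingHom (ZMod q))) D.mul_inv
    rw [map_mul, h, zero_mul, map_one] at h1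
    exact zero_ne_one h1

/-- The pole relations for `a = α x'`, `b = β x'`. -/
theorem poles (W : ALInv M q)
    (be_int : IsIntegral (Algebra.adjoin Kbar {heckeAlphaBar Kbar M q (D.xK Kbar)})
      (heckeBetaBar Kbar M q (D.xK Kbar)))
    (v_int : IsIntegral (Algebra.adjoin Kbar {(heckeAlphaBar Kbar M q (D.xK Kbar))⁻¹})
      (heckeBetaBar Kbar M q (D.xK Kbar) / heckeAlphaBar Kbar M q (D.xK Kbar) ^ q)) :
    Poles Kbar (heckeAlphaBar Kbar M q (D.xK Kbar)) (heckeBetaBar Kbar M q (D.xK Kbar)) q where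
  ta := transcendental_algHom _ (S18.transcendental_xK D Kbar)
  tb := transcendental_algHom _ (S18.transcendental_xK D Kbar)
  tab := R.transcendental_al_mul_be (deg W) (order_xK_ne D)
  b_int := be_int
  a_int := isIntegral_adjoin_algHom' (wAlg W : FN (M * q) →ₐ[Kbar] FN (M * q)) (W.w_alpha _)
    (W.w_beta _) be_int
  v_int := v_int
  v_int' := isIntegral_adjoin_algHom' (wAlg W : FN (M * q) →ₐ[Kbar] FN (M * q))
    (by
      show W.w _ = _
      rw [map_inv₀, W.w_alpha])
    (by
      show W.w _ = _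
      rw [map_div₀, map_pow, W.w_alpha, W.w_beta]) v_int

theorem transfer1 (W : ALInv M q)
    (P : Poles Kbar (heckeAlphaBar Kbar M q (D.xK Kbar)) (heckeBetaBar Kbar M q (D.xK Kbar)) q) :
    Kron.Transfer1 (deg W) (D.xK Kbar) (xx (D.xK Kbar)) where
  al := fun _ hc => isIntegral_adjoin_trans P.a_int_ab
    (isIntegral_adjoin_algHom (heckeAlphaBar Kbar M q) hc)
  be := fun _ hc => isIntegral_adjoin_trans P.b_int_ab
    (isIntegral_adjoin_algHom (heckeBetaBar Kbar M q) hc)

theorem transfer2 (W : ALInv M q)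
    (P : Poles Kbar (heckeAlphaBar Kbar M q (D.xK Kbar)) (heckeBetaBar Kbar M q (D.xK Kbar)) q) :
    Kron.Transfer2 (deg W) (D.xK Kbar) (xx (D.xK Kbar)) where
  al := fun _ hc => isIntegral_adjoin_trans P.ainv_int
    (isIntegral_adjoin_algHom' (heckeAlphaBar Kbar M q) (map_inv₀ _ _) rfl hc)
  be := fun _ hc => isIntegral_adjoin_trans P.binv_int
    (isIntegral_adjoin_algHom' (heckeBetaBar Kbar M q) (map_inv₀ _ _) rfl hc)
  eps := by
    show IsIntegral _ (heckeAlphaBar Kbar M q (D.xK Kbar) * heckeBetaBar Kbar M q (D.xK Kbar)⁻¹ ^ q)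
    rw [map_inv₀]
    exact P.eps_int
  eps' := by
    show IsIntegral _ (heckeBetaBar Kbar M q (D.xK Kbar) * heckeAlphaBar Kbar M q (D.xK Kbar)⁻¹ ^ q)
    rw [map_inv₀]
    exact P.eps'_int

end Base

/-- **The construction of the contracts.** -/
theorem hasContracts_of_inputs (hq : q.Prime) (hqM : ¬ q ∣ M) (W : ALInv M q)
    (hA : A.LiesOverPrime q) (hn : 0 < n) (hqn : ¬ q ∣ n) (D : S18.BaseData M q)
    (I : Inputs W A n D) : HasContracts W A n := by
  have : Fact q.Prime := ⟨hq⟩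
  have : CharP (kk A) q := charP_residueField A q hq hA
  have : FF.IsFF1 Kbar (modularFunctionFieldBar (M * q)) := Export.isFF1 (M * q)
  obtain ⟨σ, hσ⟩ := Lib.Frobenius.exists_isFrobeniusAt A q hq hA
  set x' : FN M := D.xK Kbar with hx'def
  set x : FN (M * q) := xx x' with hxdef
  have hser : (x' : LaurentSeries Kbar) = coeffMap (Int.castRingHom Kbar) D.X :=
    S18.Coord.coe_xK D Kbar
  have hserinv : ((x'⁻¹ : FN M) : LaurentSeries Kbar) = coeffMap (Int.castRingHom Kbar) D.Xinv :=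
    (S18.Coord.castXinv_eq D Kbar).symm
  have hgal : ∀ τ : GQ, galF M τ x' = x' := fun τ => galF_of_int τ hser
  have hgalx : ∀ τ : GQ, galF (M * q) τ x = x := fun τ => galF_alpha_mul_beta τ (hgal τ)
  obtain ⟨hx1, hrho1⟩ := exists_rho_of_int (A := A) hser
  obtain ⟨hx2, -⟩ := exists_rho_of_int (A := A) hserinv
  have hx'0 : x' ≠ 0 := xK_ne_zero D
  have P := poles D W I.be_int I.v_int
  have hB : BaseOK M q x' := baseOK D hq I.be_int I.v_int
  have T1 := transfer1 D W P
  have T2 := transfer2 D W P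
  let Dg := deg W
  let Φ : Kron.FrobInv A (modularFunctionFieldBar M) q x' := frobInv hσ (hgal σ⁻¹)
  have hxT : Transcendental Kbar x := P.tab
  have hx0 : x ≠ 0 := ne_zero_of_transcendental hxT
  have hxO : x ∈ OO A (modularFunctionFieldBar (M * q)) (wAlg W) :=
    (OO A _ (wAlg W)).mul_mem (Dg.al_mem_OO hx1) (Dg.be_mem_OO hx1)
  have hxinvO : x⁻¹ ∈ OO A (modularFunctionFieldBar (M * q)) (wAlg W) := by
    have e : x⁻¹ = Dg.al x'⁻¹ * Dg.be x'⁻¹ := by
      rw [map_inv₀, map_inv₀, ← mul_inv]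
      rfl
    rw [e]
    exact (OO A _ (wAlg W)).mul_mem (Dg.al_mem_OO hx2) (Dg.be_mem_OO hx2)
  have hroot : ∀ z : FN (M * q), z ^ n ∈ gaussSubring A (modularFunctionFieldBar (M * q)) →
      z ∈ gaussSubring A (modularFunctionFieldBar (M * q)) :=
    IsVal.root (isVal_FN A q hq hA (M * q)) hn
  obtain ⟨hmem, S, hS⟩ := G.fin_level hA hqM D
  let xb : bb A (modularFunctionFieldBar M) x' := G.toBB x' (G.self_mem_chart' hmem)
  have hxb : (xb : LaurentSeries (kk A)) = coeffMap (Int.castRingHom (kk A)) D.X := hrho1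
  have hpsi : Φ.psi1 xb = xb := by
    apply Subtype.ext
    rw [Kron.FrobInv.coe_psi1, hxb, coeffMap_coeffMap]
    exact coeffMap_congr (RingHom.ext_int _ _) D.X
  have hFq : qExpand (kk A) q (rho A (modularFunctionFieldBar M) ⟨x', hx1⟩) =
      rho A (modularFunctionFieldBar M) ⟨x', hx1⟩ ^ q := by
    have h1 := Φ.qExpand_eq_pow (xb : LaurentSeries (kk A))
    have h2 := congrArg Subtype.val hpsi
    rw [Kron.FrobInv.coe_psi1] at h2
    rw [h2] at h1
    exact h1
  obtain ⟨Good, hGood, hG4⟩ := I.hG4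
  refine ⟨x', x,
    { npos := hn
      two_le := hq.two_le
      root := hroot
      x_ne := hx0
      x_mem := hxO
      xinv_mem := hxinvO
      red_chart1 := red_chart1_FN hq hqM A hA (isAL W) hB
      red_chart2 := red_chart2_FN hq hqM A hA (isAL W) hB
      int1 := int_FN hq hqM A hA (isAL W) (G.int_level hA hqM D hn)
      int2 := int_FN hq hqM A hA (isAL W) (G.int_level_inv hA hqM D hn)
      Fr2 := Φ.Fr2
      ψ := Φ.psi
      Fr2_eq := Φ.Fr2_eq
      xb := xb
      Fr2_xb := Φ.Fr2_of_psi1_eq hpsi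
      fin_b1 := ⟨S, hS⟩
      proj1 := Kron.exists_proj1 Dg T1
      proj2 := Kron.exists_proj2 Dg T1
      gen1 := Kron.exists_gen1 Dg T1 Φ
      gen2 := Kron.exists_gen2 Dg T1 Φ
      exhaust := R.exhaust_of_inv_mem hx0 hxinvO
      hdiv := R.hdiv_of_att (R.att_modular A q hq hA (M * q)) x
      hH1 := I.hH1
      hcond2 := Kron.exists_hcond2 Dg T2 hq.two_le hx'0 hx1 hx2 rfl hFq hxinvO
      isK_mul := fun _ _ hu hv => hu.mul hv
      isK_inv := fun _ hu => hu.inv
      isK_one := isKum_one _ _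
      layerII := II.layerII_of_hasG4 hq A hA hn hqn (wAlg W) W.w_alpha W.w_beta x hroot hxT hxO
        hxinvO (R.isAlgebraic_algebra_adjoin hxT) Good hGood hG4 },
    hxT, hgal, hgalx, fun f => ?_⟩
  show ((Φ.Fr2 f : bb A (modularFunctionFieldBar M) x') : LaurentSeries (kk A)) = _
  rw [Kron.FrobInv.Fr2_apply, Kron.FrobInv.coe_Fr1, Kron.FrobInv.coe_Fr1,
    ModularCurve.qExpand_qExpand]
  exact (ModularCurve.qExpand_congr (pow_two q) _).symm


/-- **What remains to be proved for S34 and S35.** -/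
def InputsStatement : Prop :=
  ∀ (M q : ℕ) [NeZero M] [NeZero q], q.Prime → ¬ q ∣ M → (q = 3 → 2 ∣ M) → (q = 2 → 3 ∣ M) →
    ∀ W : ALInv M q, ∀ A : ValuationSubring Kbar, A.LiesOverPrime q →
      ∀ n : ℕ, 0 < n → ¬ q ∣ n → ∃ D : S18.BaseData M q, Inputs W A n D

theorem contractsStatement_of_inputs (H : InputsStatement) : ContractsStatement := by
  intro M q _ _ hq hqM h3 h2 W A hA n hn hqn
  obtain ⟨D, I⟩ := H M q hq hqM h3 h2 W A hA n hn hqn
  exact hasContracts_of_inputs hq hqM W hA hn hqn D I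

/-- **`C1.NodalTarget` from the four missing inputs.** -/
theorem nodalTarget_of_inputs (H : InputsStatement) : C1.NodalTarget :=
  nodalTarget_of_contracts (contractsStatement_of_inputs H)

end Fermat.Agent.S34.Nodal.Inst.Top

end
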