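/-
C1 nodal core, instantiation: CLOSING FILE (helper23).

* `hasG4_normal`       : `II.HasG4` over every normal number field (from `Mod.exists_LQ`);
* `contractsStatement` : `Top.ContractsStatement`;
* `nodalTarget`        : `C1.NodalTarget`.
-/
import Fermat.Agent.S34.Nodal.Inst.Top.Fields
import Fermat.Agent.S34.Nodal.Inst.K6.Final
import Fermat.Agent.BAD.LevelQ.Mod.PoleH
import Fermat.Agent.S18.Descent.DVRUnif

set_option autoImplicit false

noncomputable section

namespace Fermat.Agent.S34.Nodal.Inst.Top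

open ModularCurve AlgebraicCurve Fermat.Agent.S24 Fermat.Agent.S24.B Fermat.Agent.GAL
  Fermat.Agent.GAL.E Fermat.Agent.S18 Fermat.Agent.S34.Nodal.Inst.Gal Fermat.Agent.BAD
  Fermat.Agent.BAD.LevelQ

variable {M q : ℕ} [NeZero M] [NeZero q]

/-- `II.HasG4` over a normal number field. -/
theorem hasG4_normal (hq : q.Prime) (hqM : ¬ q ∣ M) (A : ValuationSubring Kbar)
    (hA : A.LiesOverPrime q) (D : BaseData M q) (hD : Mod.BeInt D)
    (K₀ : IntermediateField ℚ Kbar) [FiniteDimensional ℚ K₀] [Normal ℚ K₀] :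
    II.HasG4 A K₀ M q (xx (D.xK Kbar)) := by
  have : Fact q.Prime := ⟨hq⟩
  obtain ⟨ϖ₀, h₀, -⟩ := exists_isUnif_comap A hA K₀
  obtain ⟨γ₀, hγ⟩ := Mod.exists_isFrobInv_of_normal A hq hA K₀
  have hchar : (A.comap (algebraMap K₀ Kbar)).valuation ((q : ℕ) : K₀) < 1 := by
    rw [← ValuationSubring.mem_nonunits_iff]
    exact Descent.restrict_liesOverPrime K₀ hA
  obtain ⟨w₀, Ow', V, H, -, hG⟩ := Mod.exists_LQ h₀ hq hqM hchar hγ D hD
  refine ⟨ϖ₀, w₀, V, _, H.w_al, H.w_be, hG, H.V_one, H.isMVert, H.isMCoord, ?_⟩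
  rw [LevelQ.xx, map_mul]
  have e1 := II.bc_al (K₀ := K₀) (K := Kbar) M q (D.xK K₀)
  have e2 := II.bc_be (K₀ := K₀) (K := Kbar) M q (D.xK K₀)
  have e3 : II.bc (II.compat_FK K₀ Kbar M) (D.xK K₀) = D.xK Kbar := Export.baseChangeMap_xK D _
  rw [e3] at e1 e2
  exact congrArg₂ (· * ·) e1 e2

/-- The normal number fields are cofinal. -/
theorem exists_normal_ge (K₁ : IntermediateField ℚ Kbar) (h : FiniteDimensional ℚ K₁) :
    ∃ K₀ : IntermediateField ℚ Kbar, K₁ ≤ K₀ ∧ FiniteDimensional ℚ K₀ ∧ Normal ℚ K₀ := by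
  have : IsAlgClosure ℚ Kbar := ⟨inferInstance, AlgebraicClosure.isAlgebraic ℚ⟩
  have : Normal ℚ Kbar := IsAlgClosure.normal ℚ Kbar
  exact ⟨IntermediateField.normalClosure ℚ K₁ Kbar, K₁.le_normalClosure,
    normalClosure.is_finiteDimensional ℚ K₁ Kbar, normalClosure.normal ℚ K₁ Kbar⟩

/-- **The contracts exist.** -/
theorem contractsStatement : ContractsStatement := by
  intro M q _ _ hq hqM h3 h2 W A hA n hn hqn
  have hcase : 5 ≤ q ∨ (q = 3 ∧ 2 ∣ M) ∨ (q = 2 ∧ 3 ∣ M) := by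
    rcases Nat.lt_or_ge q 5 with h | h
    · have h2' := hq.two_le
      interval_cases q
      · exact Or.inr (Or.inr ⟨rfl, h2 rfl⟩)
      · exact Or.inr (Or.inl ⟨rfl, h3 rfl⟩)
      · exact absurd hq (by norm_num)
    · exact Or.inl h
  obtain ⟨D, hB, hD⟩ := Mod.exists_good_base (M := M) hq hcase
  refine hasContracts_of_inputs hq hqM W hA hn hqn D
    { be_int := hB.be_int
      v_int := hB.v_int
      hH1 := K6.hH1_FN hq hqM A hA ⟨W.w_alpha, W.w_beta⟩ D hD
      hG4 := ⟨fun K₀ => Normal ℚ K₀, exists_normal_ge, fun K₀ hfin hnor =>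
        hasG4_normal hq hqM A hA D hD K₀⟩ }

/-- **The nodal target.** -/
theorem nodalTarget : C1.NodalTarget := nodalTarget_of_contracts contractsStatement

end Fermat.Agent.S34.Nodal.Inst.Top

end
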